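import Fermat.Agent.GalRep.Flat.Relations

/-!
# Relations with Hecke coefficients on the Tate module hold in a representation with the same
Frobenius characteristic polynomials

The analogue of `FermatAgent.GalRep.Flat.adicComb_eq_zero` for combinations
`∑ c • t * ρ σ` (`t` in the Hecke algebra), for any residually absolutely irreducible adic
representation whose Frobenius characteristic polynomials are given by a Hecke character outside a
finite set of primes.
-/

set_option autoImplicit false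

noncomputable section

namespace FermatAgent.LocalP.UnitRoot

open CuspForm Matrix IsLocalRing Polynomial FermatAgent.GalRep FermatAgent.GalRep.Flat

local notation "GQ" => AlgebraicClosure ℚ ≃ₐ[ℚ] AlgebraicClosure ℚ

variable {p : ℕ} [Fact p.Prime] {N : ℕ} [NeZero N] {S₀ : Finset ℕ}
  (D : HeckeTateData N p (↑S₀ : Set ℕ))

local notation "Mr" => Matrix (Fin D.rank) (Fin D.rank) ℤ_[p]

/-- Combinations of `t * ρ σ` on the Tate module. -/
def tateCombH : (GQ × (heckeAlgebra N 2 (↑S₀ : Set ℕ)) →₀ ℤ_[p]) →ₗ[ℤ_[p]] Mr :=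
  Finsupp.linearCombination ℤ_[p] fun z => hecMat D z.2 * D.ρ z.1

/-- Combinations of `t * (ω ρ⁻¹) σ`. -/
def invCombH : (GQ × (heckeAlgebra N 2 (↑S₀ : Set ℕ)) →₀ ℤ_[p]) →ₗ[ℤ_[p]] Mr :=
  Finsupp.linearCombination ℤ_[p] fun z => cycChar p z.1 • (hecMat D z.2 * D.ρ z.1⁻¹)

/-- Combinations of `t * (ρ + ω ρ⁻¹) σ`. -/
def xCombH : (GQ × (heckeAlgebra N 2 (↑S₀ : Set ℕ)) →₀ ℤ_[p]) →ₗ[ℤ_[p]] Mr :=
  Finsupp.linearCombination ℤ_[p] fun z => hecMat D z.2 * xMat D z.1

theorem hecMat_comm (g : GQ) (t : (heckeAlgebra N 2 (↑S₀ : Set ℕ))) : D.ρ g * hecMat D t = hecMat D t * D.ρ g :=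
  (D.comm g t).eq

theorem tateCombH_mapDomain_right (x : GQ) (l : GQ × (heckeAlgebra N 2 (↑S₀ : Set ℕ)) →₀ ℤ_[p]) :
    tateCombH D (l.mapDomain (Prod.map (· * x) id)) = tateCombH D l * D.ρ x := by
  induction l using Finsupp.induction_linear with
  | zero => simp
  | add l m hl hm => simp only [Finsupp.mapDomain_add, map_add, hl, hm, add_mul]
  | single z c =>
    simp only [Finsupp.mapDomain_single, tateCombH, Finsupp.linearCombination_single,
      Prod.map_fst, Prod.map_snd, id_eq, map_mul, smul_mul_assoc, mul_assoc]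

theorem invCombH_mapDomain_right (x : GQ) (l : GQ × (heckeAlgebra N 2 (↑S₀ : Set ℕ)) →₀ ℤ_[p]) :
    invCombH D (l.mapDomain (Prod.map (· * x) id)) =
      cycChar p x • (D.ρ x⁻¹ * invCombH D l) := by
  induction l using Finsupp.induction_linear with
  | zero => simp
  | add l m hl hm => simp only [Finsupp.mapDomain_add, map_add, hl, hm, mul_add, smul_add]
  | single z c =>
    simp only [Finsupp.mapDomain_single, invCombH, Finsupp.linearCombination_single,
      Prod.map_fst, Prod.map_snd, id_eq, _root_.mul_inv_rev, map_mul, mul_smul_comm, smul_smul,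
      ← mul_assoc, ← hecMat_comm D x⁻¹]
    congr 1
    ring

theorem xCombH_eq (l : GQ × (heckeAlgebra N 2 (↑S₀ : Set ℕ)) →₀ ℤ_[p]) : xCombH D l = tateCombH D l + invCombH D l := by
  induction l using Finsupp.induction_linear with
  | zero => simp
  | add l m hl hm => rw [map_add, map_add, map_add, hl, hm]; abel
  | single z c =>
    simp only [tateCombH, invCombH, xCombH, Finsupp.linearCombination_single, xMat, mul_add,
      mul_smul_comm, smul_add]

theorem commute_xCombH (hd : FrobDense) (l : GQ × (heckeAlgebra N 2 (↑S₀ : Set ℕ)) →₀ ℤ_[p]) (g : GQ) :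
    Commute (xCombH D l) (D.ρ g) := by
  rw [xCombH, Finsupp.linearCombination_apply]
  exact Commute.sum_left _ _ _ fun z _ => Commute.smul_left
    (Commute.mul_left ((D.comm g z.2).symm) (commute_xMat D hd S₀.finite_toSet z.1 g)) _

variable {T : Type} [CommRing T] [IsLocalRing T]
  [IsAdicComplete (maximalIdeal T) T]
  (hpT : (p : T) ∈ maximalIdeal T) (χ : (heckeAlgebra N 2 (↑S₀ : Set ℕ)) →+* T) (ρ : GaloisRepAdic T)

/-- The Frobenius characteristic polynomials of `ρ` are given by `χ` outside `S`. -/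
def HasFrobCharpolys (S : Finset ℕ) : Prop :=
  ∀ (ℓ : ℕ) (hℓ : ℓ.Prime) (hℓN : ¬ ℓ ∣ N) (hℓS : ℓ ∉ (↑S₀ : Set ℕ)), ℓ ∉ S →
    ∀ A : ValuationSubring (AlgebraicClosure ℚ), A.LiesOverPrime ℓ →
      ∀ σ : GQ, A.IsFrobeniusAt σ ℓ →
        LinearMap.charpoly (ρ.ρ σ) = X ^ 2 - C (χ (heckeAlgebra.T (k := 2) hℓ hℓN hℓS)) * X + C (ℓ : T)

omit [IsAdicComplete (maximalIdeal T) T] in
include D hpT in
/-- The trace of `ρ` is the value of `χ` at the approximating Hecke elements. -/
theorem exists_trace_congr (hd : FrobDense) {S : Finset ℕ} (hρ : HasFrobCharpolys χ ρ S) :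
    ∃ c : ℕ, ∀ (n : ℕ) (σ : GQ) (t : (heckeAlgebra N 2 (↑S₀ : Set ℕ))),
      (∀ i j, (p : ℤ_[p]) ^ (n + c) ∣ (xMat D σ - hecMat D t) i j) →
        ρ.trace σ - χ t ∈ maximalIdeal T ^ n := by
  classical
  obtain ⟨c, hc⟩ := exists_approx_unique D
  refine ⟨c, fun n σ t ht => ?_⟩
  obtain ⟨L, hL, hLc⟩ := ρ.isAdicContinuous n
  obtain ⟨U, hU, hUc⟩ := exists_level_xMat D (n + c)
  obtain ⟨ℓ, hℓ, hℓS, A, hA, τ, hτ, m, hm⟩ :=
    hd (L ⊔ U) (IntermediateField.finiteDimensional_sup L U)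
      ((S₀ ∪ S) ∪ insert p N.primeFactors) σ
  simp only [Finset.mem_union, Finset.mem_insert, not_or] at hℓS
  have hℓN : ¬ ℓ ∣ N := fun h => hℓS.2.2 (Nat.mem_primeFactors.mpr ⟨hℓ, h, NeZero.ne N⟩)
  have hℓS' : ℓ ∉ (↑S₀ : Set ℕ) := fun h => hℓS.1.1 h
  set t' := powTrace (heckeAlgebra.T (k := 2) hℓ hℓN hℓS') (ℓ : (heckeAlgebra N 2 (↑S₀ : Set ℕ))) m
  have ht' : ∀ i j, (p : ℤ_[p]) ^ (n + c) ∣ (xMat D σ - hecMat D t') i j := fun i j => by
    rw [← xMat_frobenius_pow D hℓ hℓN hℓS' hℓS.2.1 hA hτ m]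
    exact hUc σ (τ ^ m) (fun a ha => hm a (le_sup_right (a := L) ha)) i j
  obtain ⟨u, hu⟩ := hc n σ t t' ht ht'
  have htr : ρ.trace (τ ^ m) = χ t' := by
    rw [GaloisRepAdic.trace, map_pow, trace_pow_of_charpoly ρ.finrank_eq _ _ _
      (hρ ℓ hℓ hℓN hℓS' hℓS.1.2 A hA τ hτ) m, map_powTrace, map_natCast]
  have hcont : ρ.trace σ - ρ.trace (τ ^ m) ∈ maximalIdeal T ^ n := by
    let b := Module.finBasisOfFinrankEq T ρ.V ρ.finrank_eq
    have hdiff : ∀ v, ρ.ρ σ v - ρ.ρ (τ ^ m) v ∈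
        (maximalIdeal T ^ n) • (⊤ : Submodule T ρ.V) := fun v => by
      have h1 : ρ.ρ σ v - ρ.ρ (τ ^ m) v = ρ.ρ (τ ^ m) (ρ.ρ ((τ ^ m)⁻¹ * σ) v - v) := by
        rw [map_sub, ← Module.End.mul_apply, ← map_mul, mul_inv_cancel_left]
      rw [h1]
      refine Submodule.smul_top_le_comap_smul_top _ _ (hLc _ (fun a ha => ?_) v)
      rw [AlgEquiv.mul_apply, hm a (le_sup_left (b := U) ha), ← AlgEquiv.mul_apply,
        inv_mul_cancel, AlgEquiv.one_apply]
    rw [GaloisRepAdic.trace, GaloisRepAdic.trace, ← map_sub, LinearMap.trace_eq_matrix_trace T b]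
    refine Submodule.sum_mem _ fun i _ => ?_
    rw [Matrix.diag_apply, LinearMap.toMatrix_apply, LinearMap.sub_apply]
    exact Submodule.smul_induction_on
      (p := fun x => b.repr x i ∈ maximalIdeal T ^ n) (hdiff (b i))
      (fun r hr y _ => by
        rw [map_smul, Finsupp.smul_apply, smul_eq_mul]
        exact Ideal.mul_mem_right _ _ hr)
      (fun y z hy hz => by
        rw [map_add, Finsupp.add_apply]
        exact Ideal.add_mem _ hy hz)
  have hπ : χ t' - χ t ∈ maximalIdeal T ^ n := by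
    rw [← neg_sub, neg_mem_iff, ← map_sub, hu, map_mul, map_pow, map_natCast]
    exact Ideal.mul_mem_right _ _ (Ideal.pow_mem_pow hpT n)
  have := Ideal.add_mem _ hcont hπ
  rw [htr, sub_add_sub_cancel] at this
  exact this

/-- Combinations `∑ c • χ t • ρ σ`. -/
def adicCombH : (GQ × (heckeAlgebra N 2 (↑S₀ : Set ℕ)) →₀ ℤ_[p]) →+ Module.End T ρ.V :=
  Finsupp.liftAddHom fun z => (AddMonoidHom.mulRight (ρ.ρ z.1)).comp
    ((algebraMap T (Module.End T ρ.V)).toAddMonoidHom.comp
      ((AddMonoidHom.mulRight (χ z.2)).comp (padicToRing hpT).toAddMonoidHom))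

theorem adicCombH_single (z : GQ × (heckeAlgebra N 2 (↑S₀ : Set ℕ))) (c : ℤ_[p]) :
    adicCombH hpT χ ρ (Finsupp.single z c) = (padicToRing hpT c * χ z.2) • ρ.ρ z.1 := by
  rw [adicCombH, Finsupp.liftAddHom_apply_single, Algebra.smul_def]
  rfl

theorem adicCombH_mapDomain_right (x : GQ) (l : GQ × (heckeAlgebra N 2 (↑S₀ : Set ℕ)) →₀ ℤ_[p]) :
    adicCombH hpT χ ρ (l.mapDomain (Prod.map (· * x) id)) = adicCombH hpT χ ρ l * ρ.ρ x := by
  induction l using Finsupp.induction_linear with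
  | zero => simp
  | add l m hl hm => simp only [Finsupp.mapDomain_add, map_add, hl, hm, add_mul]
  | single z c =>
    simp only [Finsupp.mapDomain_single, adicCombH_single, Prod.map_fst, Prod.map_snd, id_eq,
      map_mul, smul_mul_assoc]

theorem adicCombH_eq_sum (l : GQ × (heckeAlgebra N 2 (↑S₀ : Set ℕ)) →₀ ℤ_[p]) :
    adicCombH hpT χ ρ l = ∑ z ∈ l.support, (padicToRing hpT (l z) * χ z.2) • ρ.ρ z.1 := by
  conv_lhs => rw [← Finsupp.sum_single l, Finsupp.sum, map_sum]
  exact Finset.sum_congr rfl fun z _ => adicCombH_single hpT χ ρ z _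

include D in
theorem trace_adicCombH_eq_zero (hd : FrobDense) {S : Finset ℕ} (hρ : HasFrobCharpolys χ ρ S)
    (l : GQ × (heckeAlgebra N 2 (↑S₀ : Set ℕ)) →₀ ℤ_[p]) (hl : xCombH D l = 0) :
    LinearMap.trace T ρ.V (adicCombH hpT χ ρ l) = 0 := by
  refine eq_of_forall_sub_mem_pow fun n => ?_
  rw [sub_zero]
  obtain ⟨c₁, hc₁⟩ := exists_trace_congr D hpT χ ρ hd hρ
  obtain ⟨c₂, hc₂⟩ := exists_dvd_of_dvd_image D.ι D.ι_injective p
  choose t ht using fun σ => exists_hecke_approx D hd S₀.finite_toSet σ (n + c₁ + c₂)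
  let a : GQ × (heckeAlgebra N 2 (↑S₀ : Set ℕ)) → ℕ := fun z => (l z).appr (n + c₁ + c₂)
  have ha : ∀ z, (p : ℤ_[p]) ^ (n + c₁ + c₂) ∣ l z - (a z : ℤ_[p]) := fun z =>
    Ideal.mem_span_singleton.mp (PadicInt.appr_spec _ (l z))
  set u := ∑ z ∈ l.support, (a z : (heckeAlgebra N 2 (↑S₀ : Set ℕ))) * (z.2 * t z.1)
  have hu : ∀ i j, (p : ℤ_[p]) ^ (n + c₂) ∣ hecMat D u i j := fun i j => by
    have h : hecMat D u i j = ∑ z ∈ l.support,
        (((a z : ℤ_[p]) - l z) * (hecMat D z.2 * hecMat D (t z.1)) i j -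
          l z * (hecMat D z.2 * (xMat D z.1 - hecMat D (t z.1)) * (1 : Mr)) i j) := by
      have h0 : ∑ z ∈ l.support, l z * (hecMat D z.2 * xMat D z.1) i j = 0 := by
        have := congrFun (congrFun hl i) j
        rw [xCombH, Finsupp.linearCombination_apply, Finsupp.sum, Matrix.sum_apply] at this
        simpa using this
      calc hecMat D u i j
          = ∑ z ∈ l.support, (a z : ℤ_[p]) * (hecMat D z.2 * hecMat D (t z.1)) i j := by
            simp only [u, map_sum, map_mul, map_natCast, Matrix.sum_apply]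
            exact Finset.sum_congr rfl fun z _ => by
              rw [← nsmul_eq_mul, Matrix.smul_apply, nsmul_eq_mul]
        _ = ∑ z ∈ l.support, ((a z : ℤ_[p]) * (hecMat D z.2 * hecMat D (t z.1)) i j -
              l z * (hecMat D z.2 * xMat D z.1) i j) := by
            rw [Finset.sum_sub_distrib, h0, sub_zero]
        _ = _ := Finset.sum_congr rfl fun z _ => by
            rw [mul_one, mul_sub, Matrix.sub_apply]; ring
    rw [h]
    refine Finset.dvd_sum fun z _ => dvd_sub ?_ ?_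
    · exact ((pow_dvd_pow _ (by omega)).trans (dvd_sub_comm.mp (ha z))).mul_right _
    · exact (dvd_map_entries (n := n + c₂)
        (fun i j => (pow_dvd_pow _ (by omega)).trans (ht z.1 i j)) i j).mul_left _
  obtain ⟨w, hw⟩ := hc₂ n u fun i j => by
    have h := hu i j
    rw [hecMat_apply, Matrix.map_apply] at h
    exact (PadicInt.pow_p_dvd_int_iff _ _).mp h
  have hπu : χ u ∈ maximalIdeal T ^ n := by
    rw [hw, map_mul, map_pow, map_natCast]
    exact Ideal.mul_mem_right _ _ (Ideal.pow_mem_pow hpT n)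
  have hdiff : LinearMap.trace T ρ.V (adicCombH hpT χ ρ l) - χ u ∈ maximalIdeal T ^ n := by
    simp only [u, adicCombH_eq_sum, map_sum, map_smul, map_mul, map_natCast, smul_eq_mul,
      ← Finset.sum_sub_distrib]
    refine Ideal.sum_mem _ fun z _ => ?_
    have h1 := hc₁ n z.1 (t z.1) fun i j => (pow_dvd_pow _ (by omega)).trans (ht z.1 i j)
    have h2 : padicToRing hpT (l z) - (a z : T) ∈ maximalIdeal T ^ n := by
      rw [← map_natCast (padicToRing hpT), ← map_sub]
      exact padicToRing_mem_pow hpT ((pow_dvd_pow _ (by omega)).trans (ha z))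
    have h3 := Ideal.add_mem _ (Ideal.mul_mem_left _ (padicToRing hpT (l z) * χ z.2) h1)
      (Ideal.mul_mem_right (χ z.2 * χ (t z.1)) _ h2)
    rw [GaloisRepAdic.trace] at h3
    convert h3 using 1
    ring
  have := Ideal.add_mem _ hdiff hπu
  rwa [sub_add_cancel] at this

include D in
/-- Relations on the Tate module hold in `ρ`. -/
theorem adicCombH_eq_zero (hd : FrobDense) {S : Finset ℕ} (hρ : HasFrobCharpolys χ ρ S)
    (hirr : ρ.residual.IsAbsolutelyIrreducible) (l : GQ × (heckeAlgebra N 2 (↑S₀ : Set ℕ)) →₀ ℤ_[p]) (hl : tateCombH D l = 0) :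
    adicCombH hpT χ ρ l = 0 := by
  set R := adicCombH hpT χ ρ l
  set Y := invCombH D l
  have hx : ∀ x, xCombH D (l.mapDomain (Prod.map (· * x) id)) =
      cycChar p x • (D.ρ x⁻¹ * Y) := fun x => by
    rw [xCombH_eq, tateCombH_mapDomain_right, invCombH_mapDomain_right, hl, zero_mul, zero_add]
  have hcomm : ∀ x g, Commute (D.ρ x⁻¹ * Y) (D.ρ g) := fun x g => by
    have hu : cycChar p x⁻¹ * cycChar p x = 1 := by rw [← map_mul, inv_mul_cancel, map_one]
    have h := (commute_xCombH D hd (l.mapDomain (Prod.map (· * x) id)) g).smul_left (cycChar p x⁻¹)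
    rwa [hx, smul_smul, hu, one_smul] at h
  have hcentral : ∀ a b c : GQ, D.ρ (a * b * c)⁻¹ * Y = D.ρ (a * c * b)⁻¹ * Y := fun a b c => by
    have hY : ∀ g, Y * D.ρ g = D.ρ g * Y := fun g => by
      simpa using (hcomm 1 g).eq
    simp only [_root_.mul_inv_rev, map_mul]
    calc D.ρ c⁻¹ * (D.ρ b⁻¹ * D.ρ a⁻¹) * Y
        = (D.ρ c⁻¹ * Y) * D.ρ b⁻¹ * D.ρ a⁻¹ := by
          simp only [mul_assoc]
          rw [← mul_assoc Y, hY, mul_assoc, hY]
      _ = D.ρ b⁻¹ * (D.ρ c⁻¹ * Y) * D.ρ a⁻¹ := by rw [(hcomm c b⁻¹).eq]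
      _ = D.ρ b⁻¹ * (D.ρ c⁻¹ * D.ρ a⁻¹) * Y := by
          simp only [mul_assoc]
          rw [hY]
  have htr : ∀ a b c : GQ,
      LinearMap.trace T ρ.V (R * ρ.ρ a * (ρ.ρ b * ρ.ρ c - ρ.ρ c * ρ.ρ b)) = 0 := by
    intro a b c
    have hω : cycChar p (a * b * c) = cycChar p (a * c * b) := by
      simp only [map_mul]; ring
    have h : xCombH D (l.mapDomain (Prod.map (· * (a * b * c)) id) -
        l.mapDomain (Prod.map (· * (a * c * b)) id)) = 0 := by
      rw [map_sub, hx, hx, hω, hcentral, sub_self]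
    have h2 := trace_adicCombH_eq_zero D hpT χ ρ hd hρ _ h
    rw [map_sub, adicCombH_mapDomain_right, adicCombH_mapDomain_right, map_mul, map_mul, map_mul,
      map_mul] at h2
    rw [← h2]
    congr 1
    simp only [mul_sub, mul_assoc]
    rfl
  have hspan : ∀ x : Module.End T ρ.V, x ∈ Submodule.span T (Set.range ρ.ρ) := fun x =>
    adic_span_range_eq_top ρ hirr ▸ Submodule.mem_top
  have hall : ∀ A B C : Module.End T ρ.V,
      LinearMap.trace T ρ.V (R * A * (B * C - C * B)) = 0 := by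
    intro A B C
    induction hspan A using Submodule.span_induction with
    | mem A hA =>
      obtain ⟨a, rfl⟩ := hA
      induction hspan B using Submodule.span_induction with
      | mem B hB =>
        obtain ⟨b, rfl⟩ := hB
        induction hspan C using Submodule.span_induction with
        | mem C hC => obtain ⟨c, rfl⟩ := hC; exact htr a b c
        | zero => simp
        | add u v _ _ hu hv => rw [mul_add, add_mul, add_sub_add_comm, mul_add, map_add, hu, hv,
            add_zero]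
        | smul r u _ hu =>
          rw [mul_smul_comm, smul_mul_assoc, ← smul_sub, mul_smul_comm, map_smul, hu, smul_zero]
      | zero => simp
      | add u v _ _ hu hv => rw [mul_add, add_mul, add_sub_add_comm, mul_add, map_add, hu, hv,
          add_zero]
      | smul r u _ hu =>
        rw [mul_smul_comm, smul_mul_assoc, ← smul_sub, mul_smul_comm, map_smul, hu, smul_zero]
    | zero => simp
    | add u v _ _ hu hv => rw [mul_add, add_mul, map_add, hu, hv, add_zero]
    | smul r u _ hu => rw [mul_smul_comm, smul_mul_assoc, map_smul, hu, smul_zero]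
  refine eq_zero_of_trace_mul_eq_zero ρ hirr R fun σ => ?_
  let b := Module.finBasisOfFinrankEq T ρ.V ρ.finrank_eq
  let Φ := (LinearMap.toMatrixAlgEquiv b).symm
  let E : Fin 2 → Fin 2 → Module.End T ρ.V := fun i j => Φ (Matrix.single i j 1)
  have hdecomp : ρ.ρ σ = (ρ.ρ σ * E 0 1) * (E 1 1 * E 1 0 - E 1 0 * E 1 1) +
      (ρ.ρ σ * E 1 0) * (E 0 0 * E 0 1 - E 0 1 * E 0 0) := by
    obtain ⟨M, hM⟩ := Φ.surjective (ρ.ρ σ)
    rw [← hM]
    simp only [E, ← map_mul, ← map_sub, ← map_add]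
    congr 1
    ext i j
    fin_cases i <;> fin_cases j <;>
      simp [Matrix.mul_apply, Matrix.sub_apply, Fin.sum_univ_two, Matrix.single]
  rw [hdecomp, mul_add, map_add, ← mul_assoc R (ρ.ρ σ * E 0 1),
    ← mul_assoc R (ρ.ρ σ * E 1 0), hall, hall, add_zero]

end FermatAgent.LocalP.UnitRoot

end
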