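import Fermat.Agent.LocalP.UnitRoot.Main
import Fermat.Agent.JacCharts.Main

/-!
# The unit root line at a prime of good reduction, unconditionally
-/

set_option autoImplicit false

noncomputable section

open CuspForm ModularCurve AlgebraicCurve IsLocalRing FermatAgent.GalRep
open scoped TensorProduct

namespace FermatAgent.LocalP.UnitRoot

local notation "Qb" => AlgebraicClosure ℚ
local notation "GQ" => AlgebraicClosure ℚ ≃ₐ[ℚ] AlgebraicClosure ℚ

/-- The local models of the torsion exist at every place of good reduction. -/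
theorem hasReductionModels {N ℓ : ℕ} [NeZero N] (hℓ : ℓ.Prime) (hℓN : ¬ ℓ ∣ N)
    {A : ValuationSubring Qb} (hA : A.LiesOverPrime ℓ) : HasReductionModels N ℓ A := by
  intro n
  set P := Pic0.torsion Qb (modularFunctionFieldBar N) (ℓ ^ n)
  have hsmul : ∀ (σ : GQ) (x : JZero N), x ∈ P → σ • x ∈ P := fun σ x hx =>
    mem_torsion_pow.mpr (galois_torsion σ (mem_torsion_pow.mp hx))
  let _ : DistribMulAction GQ ↥P :=
    { smul := fun σ x => ⟨σ • (x : JZero N), hsmul σ x x.2⟩
      one_smul := fun x => Subtype.ext (one_smul GQ (x : JZero N))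
      mul_smul := fun σ τ x => Subtype.ext (mul_smul σ τ (x : JZero N))
      smul_zero := fun σ => Subtype.ext (smul_zero σ)
      smul_add := fun σ x y => Subtype.ext (smul_add σ (x : JZero N) y) }
  have : Finite ↥P :=
    (((ModCurveTorsion.torsionModel N).torsion_finite (pow_pos hℓ.pos n)).subset fun x hx => by
      show ((ℓ ^ n : ℕ) : ℤ) • x = 0
      rw [natCast_zsmul]
      exact mem_torsion_pow.mp hx).to_subtype
  refine ⟨↥P, inferInstance, inferInstance, inferInstance, P.subtype, Subtype.val_injective,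
    fun σ x => rfl, fun y => ⟨fun hy => ⟨⟨y, mem_torsion_pow.mpr hy⟩, rfl⟩, ?_⟩,
    JacCharts.exists_localModel hℓ hℓN hA P.subtype Subtype.val_injective fun σ x => rfl⟩
  rintro ⟨x, rfl⟩
  exact mem_torsion_pow.mp x.2

/-- **The unit root line.** For an odd `p ∤ N`, a representation with the Frobenius
characteristic polynomials of `χ` outside a finite set, residually irreducible, ordinary and
ramified at `A ∣ p`: a line with inertia trivial on the quotient and Frobenius acting there by a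
unit root of `X ^ 2 - χ T_p X + p`. -/
theorem exists_unitRoot_line {N p : ℕ} [NeZero N] (hp : p.Prime) (hp2 : p ≠ 2) (hpN : ¬ p ∣ N)
    {S₀ : Finset ℕ} (hNS : ∀ q, q.Prime → q ∣ N → q ∈ S₀) (hpS : p ∉ S₀)
    {T : Type} [CommRing T] [IsLocalRing T] [IsNoetherianRing T]
    [IsAdicComplete (maximalIdeal T) T] (hpT : (p : T) ∈ maximalIdeal T)
    (χ : heckeAlgebra N 2 (↑S₀ : Set ℕ) →+* T) (ρ : GaloisRepAdic T) (S : Finset ℕ)
    (hρ : HasFrobCharpolys χ ρ S) (hirr : ρ.residual.IsAbsolutelyIrreducible)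
    {A : ValuationSubring Qb} (hA : A.LiesOverPrime p)
    (hord : ∃ v : ρ.residual.V, ∀ σ ∈ A.inertiaSubgroupIn ℚ, ∀ w,
      ρ.residual.ρ σ w - w ∈ Submodule.span (ResidueField T) {v})
    (hne : ∃ σ ∈ A.inertiaSubgroupIn ℚ, ρ.residual.ρ σ ≠ 1) :
    ∃ b : Module.Basis (Fin 2) T ρ.V,
      (∀ σ ∈ A.decompositionSubgroup ℚ, ρ.ρ σ (b 0) ∈ Submodule.span T {b 0}) ∧
      (∀ σ ∈ A.inertiaSubgroupIn ℚ, ∀ x, ρ.ρ σ x - x ∈ Submodule.span T {b 0}) ∧
      ∃ u : T, IsUnit u ∧
        u ^ 2 - χ (heckeAlgebra.T (k := 2) hp hpN (fun h => hpS h)) * u + p = 0 ∧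
        ∀ φ, A.IsFrobeniusAt φ p → ∀ x, ρ.ρ φ x - u • x ∈ Submodule.span T {b 0} :=
  exists_unitRoot_line_of_models hp hp2 hpN hNS hpS hpT χ ρ S hρ hirr hA
    (hasReductionModels hp hpN hA) hord hne

/-- Residual ordinarity in the sense of `IsOrdinaryAt` gives the line used above. -/
theorem exists_residual_line {T : Type} [CommRing T] [IsLocalRing T] {ρ : GaloisRepAdic T} {p : ℕ}
    (h : (GaloisRepAdic.ofResidualGaloisRep ρ.residual).IsOrdinaryAt p)
    {A : ValuationSubring Qb} (hA : A.LiesOverPrime p) :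
    ∃ v : ρ.residual.V, ∀ σ ∈ A.inertiaSubgroupIn ℚ, ∀ w,
      ρ.residual.ρ σ w - w ∈ Submodule.span (ResidueField T) {v} := by
  obtain ⟨L, ⟨b, rfl⟩, -, hI⟩ := h A hA
  exact ⟨b 0, fun σ hσ w => hI σ hσ w⟩

end FermatAgent.LocalP.UnitRoot

end
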