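import Fermat.Agent.JacCharts.Descent
import Fermat.Agent.Mazur.Descent.Unramified
import Mathlib.Algebra.Group.ForwardDiff
import Mathlib.Algebra.MonoidAlgebra.Basic

/-!
# The connected part of a local model has no constituent fixed by inertia

For a local model of a finite `ℓ`-group over a place above an odd `ℓ` (absolute ramification
`1 < ℓ - 1`): a subgroup of points congruent to `0` has no nonzero inertia-fixed element of
order `ℓ` in any subquotient, hence it is killed by an element of `ℤ[inertia]` of augmentation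
prime to `ℓ`.
-/

set_option autoImplicit false

noncomputable section

open FermatAgent.GalRep.Flat FermatAgent.JacCharts
open scoped Pointwise

namespace FermatAgent.LocalP.UnitRoot

local notation "Qb" => AlgebraicClosure ℚ
local notation "GQ" => AlgebraicClosure ℚ ≃ₐ[ℚ] AlgebraicClosure ℚ
local notation "Rp" => GaloisRep.ratLocalizedAt

variable {T : Type} [AddCommGroup T] [DistribMulAction GQ T] {A : ValuationSubring Qb} {ℓ : ℕ}
  (L : LocalModel T A)

/-- An element fixed by inertia with value `< 1` is a multiple of `ℓ`. -/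
theorem exists_eq_natCast_mul (hℓ : ℓ.Prime) (hA : A.LiesOverPrime ℓ) {c : Qb}
    (hc : A.valuation c < 1) (hfix : ∀ σ ∈ A.inertiaSubgroupIn ℚ, σ c = c) :
    ∃ a ∈ A, c = (ℓ : Qb) * a := by
  rcases eq_or_ne c 0 with rfl | hc0
  · exact ⟨0, zero_mem A, (mul_zero _).symm⟩
  have hℓ0 : (ℓ : Qb) ≠ 0 := Nat.cast_ne_zero.mpr hℓ.ne_zero
  have hu0 : A.valuation (ℓ : Qb) ≠ 0 := (map_ne_zero _).2 hℓ0
  have hu1 : A.valuation (ℓ : Qb) < 1 := by
    have := FermatAgent.Local.val_natCast_lt_one hA
    simpa using this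
  obtain ⟨n, hn⟩ :=
    FermatAgent.Mazur.Descent.exists_val_eq_zpow_of_inertia_fixed hℓ hA hc0 hfix
  refine ⟨c / ℓ, (A.valuation_le_one_iff _).mp ?_, by rw [mul_div_cancel₀ _ hℓ0]⟩
  rw [map_div₀, hn]
  rcases le_or_gt n 0 with h | h
  · exact absurd hc (not_lt.mpr (hn ▸ one_le_zpow_of_nonpos₀ (zero_lt_iff.2 hu0) hu1.le h))
  · obtain ⟨m, rfl⟩ : ∃ m : ℕ, n = (m : ℤ) + 1 := ⟨(n - 1).toNat, by omega⟩
    rw [zpow_add_one₀ hu0, mul_div_cancel_right₀ _ hu0, zpow_natCast]
    exact pow_le_one₀ zero_le hu1.le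

variable [Finite T] (hℓ : ℓ.Prime) (hA : A.LiesOverPrime ℓ)
  (hfix : ∀ x : T, ∃ E : IntermediateField ℚ Qb, FiniteDimensional ℚ E ∧
    ∀ σ ∈ E.fixingSubgroup, σ • x = x)

include hℓ hA hfix in
/-- An equivariant basis of the model, and the expansion of `h (y + z)` in it. -/
theorem exists_basis : ∃ (ι : Type) (_ : Fintype ι) (b : ι → T → Qb),
    (∀ i σ, twist σ (b i) = b i) ∧ LinearIndependent Qb b ∧ (∀ i, b i ∈ L.HA) ∧
      ∀ h ∈ L.HA, ∃ c : ι × ι → A, ∀ y z : T,
        h (y + z) = ∑ i, b i y * ∑ j, (c (i, j) : Qb) * b j z := by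
  classical
  set H := L.equivAlg hℓ hA with hH
  have hfg := L.equivAlg_fg hℓ hA hfix
  have : Module.Finite (Rp ℓ) H := Module.Finite.iff_fg.mpr hfg
  have : Module.IsTorsionFree (Rp ℓ) H := .of_smul_eq_zero fun r f h => by
    refine or_iff_not_imp_left.mpr fun hr => Subtype.ext (funext fun x => ?_)
    have h1 : r • (f : T → Qb) x = 0 := congrFun (congrArg Subtype.val h) x
    rw [smul_qbar_eq, mul_eq_zero, Rat.cast_eq_zero] at h1
    exact h1.resolve_left fun h2 => hr (Subtype.ext h2)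
  have : Module.Free (Rp ℓ) H := Module.free_of_finite_type_torsion_free'
  let b := Module.Free.chooseBasis (Rp ℓ) H
  have : Fintype (Module.Free.ChooseBasisIndex (Rp ℓ) H) := Fintype.ofFinite _
  refine ⟨_, this, fun i => ((b i : H) : T → Qb), fun i => (b i).2.1, ?_, fun i => (b i).2.2,
    fun h hh => ?_⟩
  · refine linearIndependent_qbar (p := ℓ) (act := fun σ x => σ • x)
      (fun σ y => ⟨σ⁻¹ • y, smul_inv_smul σ y⟩)
      (fun i => (isEquivariant_iff_twist _).mpr (b i).2.1) ?_
    exact b.linearIndependent.map' H.val.toLinearMap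
      (LinearMap.ker_eq_bot.mpr Subtype.val_injective)
  have hspan := LocalModel.adjoin_pullFun_le_span hℓ hA H (fun i => ((b i : H) : T → Qb))
    (fun a ha => ⟨fun i => b.repr ⟨a, ha⟩ i, by
      conv_lhs => rw [show a = ((⟨a, ha⟩ : H) : T → Qb) from rfl, ← b.sum_repr ⟨a, ha⟩]
      rw [AddSubmonoidClass.coe_finsetSum]
      rfl⟩) (L.adjoin_pull_le hℓ hA hfix (L.add_mem h hh))
  obtain ⟨c, hc⟩ := (Submodule.mem_span_range_iff_exists_fun (R := A)).mp hspan
  refine ⟨c, fun y z => ?_⟩
  have h1 := congrFun hc (y, z)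
  rw [Finset.sum_apply, Fintype.sum_prod_type] at h1
  refine h1.symm.trans (Finset.sum_congr rfl fun i _ => ?_)
  rw [Finset.mul_sum]
  refine Finset.sum_congr rfl fun j _ => ?_
  rw [LocalModel.smul_apply']
  ring

/-- Functions of the model invariant under inertia and under translation by `W`. -/
def Admissible (W : AddSubgroup T) (h : T → Qb) : Prop :=
  h ∈ L.HA ∧ (∀ σ ∈ A.inertiaSubgroupIn ℚ, twist σ h = h) ∧ ∀ w ∈ W, ∀ y, h (y + w) = h y

include hℓ hA hfix in
/-- The difference in the direction `x` of an admissible function is a multiple of `ℓ ^ v` in the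
model, if all differences at `0` are. -/
theorem exists_fwdDiff {W : AddSubgroup T} {x : T} (hσ : ∀ σ ∈ A.inertiaSubgroupIn ℚ, σ • x - x ∈ W) {v : ℕ}
    (hv : ∀ h, Admissible L W h → ∃ a ∈ A, h x - h 0 = (ℓ : Qb) ^ v * a) {h : T → Qb}
    (hh : Admissible L W h) :
    ∃ g, Admissible L W g ∧ fwdDiff x h = fun y => (ℓ : Qb) ^ v * g y := by
  obtain ⟨ι, _, b, hbt, hbi, hbm, hexp⟩ := exists_basis L hℓ hA hfix
  obtain ⟨c, hc⟩ := hexp h hh.1
  set β : ι → T → Qb := fun i z => ∑ j, (c (i, j) : Qb) * b j z with hβ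
  have hext : ∀ u u' : ι → Qb, (∀ y, ∑ i, b i y * u i = ∑ i, b i y * u' i) → u = u' := by
    intro u u' huu
    funext i
    refine sub_eq_zero.mp (Fintype.linearIndependent_iff.mp hbi (fun j => u j - u' j) ?_ i)
    funext y
    simp only [Finset.sum_apply, Pi.smul_apply, smul_eq_mul, sub_mul, Finset.sum_sub_distrib,
      Pi.zero_apply, sub_eq_zero]
    simpa [mul_comm] using huu y
  have hβA : ∀ i, Admissible L W (β i) := by
    intro i
    refine ⟨?_, fun σ hσI => ?_, fun w hw z => ?_⟩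
    · have : β i = ∑ j, c (i, j) • b j := funext fun z => by
        rw [Finset.sum_apply]
        exact Finset.sum_congr rfl fun j _ => (LocalModel.smul_apply' _ _ _).symm
      rw [this]
      exact sum_mem fun j _ => L.HA.smul_mem (hbm j) _
    · funext z
      refine congrFun (hext (fun i => twist σ (β i) z) (fun i => β i z) fun y => ?_) i
      rw [← hc y z]
      have h1 : σ (h (σ⁻¹ • y + σ⁻¹ • z)) = h (y + z) := by
        rw [← smul_add]
        exact congrFun (hh.2.1 σ hσI) (y + z)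
      rw [← h1, hc, map_sum]
      refine Finset.sum_congr rfl fun k _ => ?_
      rw [map_mul]
      exact congrArg (· * _) (congrFun (hbt k σ) y).symm
    · refine congrFun (hext (fun i => β i (z + w)) (fun i => β i z) fun y => ?_) i
      rw [← hc, ← hc, ← add_assoc]
      exact hh.2.2 w hw _
  choose a ha using fun i => hv (β i) (hβA i)
  set g : T → Qb := fun y => ∑ i, a i * b i y with hg
  have hd : fwdDiff x h = fun y => (ℓ : Qb) ^ v * g y := by
    funext y
    have e0 := hc y 0
    rw [add_zero] at e0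
    show h (y + x) - h y = _
    rw [hc y x, e0, ← Finset.sum_sub_distrib, hg, Finset.mul_sum]
    refine Finset.sum_congr rfl fun i _ => ?_
    rw [← mul_sub, (ha i).2]
    ring
  have hℓv : (ℓ : Qb) ^ v ≠ 0 := pow_ne_zero _ (Nat.cast_ne_zero.mpr hℓ.ne_zero)
  refine ⟨g, ⟨?_, fun σ hσI => ?_, fun w hw y => ?_⟩, hd⟩
  · have : g = ∑ i, (⟨a i, (ha i).1⟩ : A) • b i := funext fun y => by
      rw [Finset.sum_apply]
      exact Finset.sum_congr rfl fun i _ => (LocalModel.smul_apply' ⟨a i, (ha i).1⟩ (b i) y).symm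
    rw [this]
    exact sum_mem fun i _ => L.HA.smul_mem (hbm i) _
  · funext y
    refine mul_left_cancel₀ hℓv ?_
    have h1 := congrFun hd (σ⁻¹ • y)
    have h2 := congrFun hd y
    simp only [fwdDiff] at h1 h2
    rw [twist_apply, ← h2]
    have h3 : σ ((ℓ : Qb) ^ v * g (σ⁻¹ • y)) = (ℓ : Qb) ^ v * σ (g (σ⁻¹ • y)) := by
      rw [map_mul, map_pow, map_natCast]
    rw [← h3, ← h1, map_sub]
    congr 1
    · have h4 := congrFun (hh.2.1 σ hσI) (y + σ • x)
      rw [twist_apply, smul_add, inv_smul_smul] at h4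
      rw [h4, show y + σ • x = (y + x) + (σ • x - x) by abel]
      exact hh.2.2 _ (hσ σ hσI) _
    · exact congrFun (hh.2.1 σ hσI) y
  · refine mul_left_cancel₀ hℓv ?_
    have h1 := congrFun hd (y + w)
    have h2 := congrFun hd y
    simp only [fwdDiff] at h1 h2
    rw [← h1, ← h2, add_right_comm, hh.2.2 w hw, hh.2.2 w hw]

include hℓ hA hfix in
/-- A point congruent to `0` whose class modulo an inertia-stable subgroup is fixed by inertia and
of order dividing `ℓ` lies in the subgroup. -/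
theorem mem_of_connected (hℓ2 : ℓ ≠ 2) (W : AddSubgroup T)
    (hW : ∀ σ ∈ A.inertiaSubgroupIn ℚ, ∀ w ∈ W, σ • w ∈ W) {x : T}
    (hred : ∀ f ∈ L.HA, A.valuation (f x - f 0) < 1) (hx : ℓ • x ∈ W)
    (hσ : ∀ σ ∈ A.inertiaSubgroupIn ℚ, σ • x - x ∈ W) : x ∈ W := by
  classical
  have hℓ3 : 3 ≤ ℓ := by have := hℓ.two_le; omega
  have hℓ0 : (ℓ : Qb) ≠ 0 := Nat.cast_ne_zero.mpr hℓ.ne_zero
  have hnA : ∀ m : ℕ, (m : Qb) ∈ A := fun m => natCast_mem A m
  have main : ∀ v : ℕ, ∀ h, Admissible L W h →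
      ∃ a ∈ A, h x - h 0 = (ℓ : Qb) ^ (v + 1) * a := by
    intro v
    induction v with
    | zero =>
      intro h hh
      have hfixd : ∀ σ ∈ A.inertiaSubgroupIn ℚ, σ (h x - h 0) = h x - h 0 := fun σ hσI => by
        have h1 := congrFun (hh.2.1 σ hσI) (σ • x)
        have h2 := congrFun (hh.2.1 σ hσI) 0
        rw [twist_apply, inv_smul_smul] at h1
        rw [twist_apply, smul_zero] at h2
        rw [map_sub, h1, h2, show σ • x = x + (σ • x - x) by abel, hh.2.2 _ (hσ σ hσI)]
      obtain ⟨a, ha, he⟩ := exists_eq_natCast_mul hℓ hA (hred h hh.1) hfixd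
      exact ⟨a, ha, by rw [pow_one, he]⟩
    | succ v ih =>
      intro h hh
      choose! G hG hGd using fun h hh => exists_fwdDiff L hℓ hA hfix hσ ih (h := h) hh
      set s : ℕ → T → Qb := fun k => G^[k] h with hs
      have hsA : ∀ k, Admissible L W (s k) := fun k => by
        induction k with
        | zero => exact hh
        | succ k ihk => simp only [hs, Function.iterate_succ_apply']; exact hG _ ihk
      have hΔ : ∀ k, (fwdDiff x)^[k] h = fun y => (ℓ : Qb) ^ ((v + 1) * k) * s k y := by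
        intro k
        induction k with
        | zero => funext y; simp [hs]
        | succ k ihk =>
          funext y
          have h1 := congrFun (hGd _ (hsA k)) y
          simp only [fwdDiff] at h1
          rw [Function.iterate_succ_apply', ihk, fwdDiff, ← mul_sub, h1, ← mul_assoc, ← pow_add,
            show s (k + 1) = G (s k) from Function.iterate_succ_apply' G k h]
          ring_nf
      have hsum := shift_eq_sum_fwdDiff_iter x h ℓ 0
      rw [zero_add, show h (ℓ • x) = h 0 by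
        conv_lhs => rw [← zero_add (ℓ • x)]
        exact hh.2.2 _ hx 0] at hsum
      have hval : ∀ k, s k 0 ∈ A := fun k => L.val_mem _ (hsA k).1 0
      have hterm : ∀ k, 2 ≤ k → k ≤ ℓ → ∃ a ∈ A,
          ℓ.choose k • (fwdDiff x)^[k] h 0 = (ℓ : Qb) ^ (v + 3) * a := by
        intro k hk hk'
        rw [congrFun (hΔ k) 0, nsmul_eq_mul]
        rcases hk'.lt_or_eq with hlt | heq
        · obtain ⟨m, hm⟩ := hℓ.dvd_choose_self (by omega) hlt
          obtain ⟨r, hr⟩ := le_iff_exists_add.mp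
            (show v + 2 ≤ (v + 1) * k by nlinarith)
          exact ⟨(m : Qb) * ((ℓ : Qb) ^ r * s k 0),
            mul_mem (hnA m) (mul_mem (pow_mem (hnA ℓ) r) (hval k)), by
              rw [hm, hr]; push_cast; ring⟩
        · obtain ⟨r, hr⟩ := le_iff_exists_add.mp
            (show v + 3 ≤ (v + 1) * k by nlinarith)
          exact ⟨(ℓ : Qb) ^ r * s k 0, mul_mem (pow_mem (hnA _) r) (hval _), by
            rw [heq, Nat.choose_self, ← heq, hr, Nat.cast_one, one_mul]; ring⟩
      choose! t htA ht using hterm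
      rw [Finset.range_eq_Ico, Finset.sum_eq_sum_Ico_succ_bot (Nat.succ_pos _),
        Finset.sum_eq_sum_Ico_succ_bot (by omega)] at hsum
      simp only [Nat.choose_zero_right, one_smul, Function.iterate_zero_apply] at hsum
      have h2 : ∑ k ∈ Finset.Ico (1 + 1) (ℓ + 1), ℓ.choose k • (fwdDiff x)^[k] h 0 =
          (ℓ : Qb) ^ (v + 3) * ∑ k ∈ Finset.Ico (1 + 1) (ℓ + 1), t k := by
        rw [Finset.mul_sum]
        exact Finset.sum_congr rfl fun k hk => by
          have := Finset.mem_Ico.mp hk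
          exact ht k (by omega) (by omega)
      rw [zero_add, h2, left_eq_add, Nat.choose_one_right, congrFun (hΔ 1) 0, nsmul_eq_mul] at hsum
      refine ⟨-∑ k ∈ Finset.Ico (1 + 1) (ℓ + 1), t k,
        neg_mem (sum_mem fun k hk => htA k (by have := Finset.mem_Ico.mp hk; omega)
          (by have := Finset.mem_Ico.mp hk; omega)), ?_⟩
      have hs1 : (ℓ : Qb) ^ (v + 1) * s 1 0 = h x - h 0 := by
        have := congrFun (hΔ 1) 0
        simp only [Function.iterate_one, fwdDiff, zero_add, mul_one] at this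
        exact this.symm
      rw [← hs1]
      refine mul_left_cancel₀ hℓ0 ?_
      linear_combination hsum
  by_contra hxW
  obtain ⟨M, hM⟩ := L.exists_pow_mul_mem_HA hℓ hA
  set ind : T → Qb := fun y => if y ∈ W then 1 else 0 with hind
  have hadm : Admissible L W (fun y => (ℓ : Qb) ^ M * ind y) := by
    refine ⟨hM ind fun y => ?_, fun σ hσI => ?_, fun w hw y => ?_⟩
    · simp only [hind]
      split_ifs
      · exact one_mem A
      · exact zero_mem A
    · funext y
      have hiff : σ⁻¹ • y ∈ W ↔ y ∈ W :=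
        ⟨fun h => by simpa using hW σ hσI _ h, fun h => hW _ (inv_mem hσI) _ h⟩
      simp only [twist_apply, hind, map_mul, map_pow, map_natCast, hiff, apply_ite σ, map_one,
        map_zero]
    · simp only [hind, W.add_mem_cancel_right hw]
  obtain ⟨a, ha, he⟩ := main M _ hadm
  simp only [hind, W.zero_mem, if_pos, if_neg hxW, mul_zero, mul_one, zero_sub] at he
  have h1 : (ℓ : Qb) * (-a) = 1 := by
    refine mul_left_cancel₀ (pow_ne_zero M hℓ0) ?_
    rw [mul_one]
    linear_combination he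
  have hu1 : A.valuation (ℓ : Qb) < 1 := by
    have := FermatAgent.Local.val_natCast_lt_one hA
    simpa using this
  have h2 := congrArg A.valuation h1
  rw [map_mul, map_one] at h2
  exact absurd h2 (ne_of_lt (mul_lt_one_of_nonneg_of_lt_one_left zero_le hu1
    ((A.valuation_le_one_iff _).mpr (neg_mem ha))))

/-- The group algebra of inertia. -/
abbrev InertiaAlg (A : ValuationSubring Qb) : Type := MonoidAlgebra ℤ ↥(A.inertiaSubgroupIn ℚ)

/-- The action of the group algebra of inertia. -/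
def actHom (A : ValuationSubring Qb) (T : Type) [AddCommGroup T] [DistribMulAction GQ T] :
    InertiaAlg A →ₐ[ℤ] AddMonoid.End T :=
  MonoidAlgebra.lift ℤ (AddMonoid.End T) ↥(A.inertiaSubgroupIn ℚ)
    ((DistribMulAction.toAddMonoidEnd GQ T).comp (A.inertiaSubgroupIn ℚ).subtype)

/-- The augmentation. -/
def aug (A : ValuationSubring Qb) : InertiaAlg A →ₐ[ℤ] ℤ :=
  MonoidAlgebra.lift ℤ ℤ ↥(A.inertiaSubgroupIn ℚ) 1

omit [Finite T] in
theorem actHom_of (σ : ↥(A.inertiaSubgroupIn ℚ)) (x : T) :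
    actHom A T (MonoidAlgebra.of ℤ _ σ) x = (σ : GQ) • x := by
  rw [actHom, MonoidAlgebra.lift_of]; rfl

theorem aug_of (σ : ↥(A.inertiaSubgroupIn ℚ)) : aug A (MonoidAlgebra.of ℤ _ σ) = 1 := by
  rw [aug, MonoidAlgebra.lift_of]; rfl

include hℓ hA hfix in
/-- An inertia-stable subgroup of points congruent to `0` is killed by an element of the group
algebra of inertia of augmentation prime to `ℓ`. -/
theorem exists_annihilator (hℓ2 : ℓ ≠ 2) (K : AddSubgroup T)
    (hK : ∀ σ ∈ A.inertiaSubgroupIn ℚ, ∀ x ∈ K, σ • x ∈ K)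
    (hred : ∀ x ∈ K, ∀ f ∈ L.HA, A.valuation (f x - f 0) < 1) :
    ∃ e : InertiaAlg A, ¬ (ℓ : ℤ) ∣ aug A e ∧ ∀ x ∈ K, actHom A T e x = 0 := by
  classical
  have hℓp : Prime (ℓ : ℤ) := Nat.prime_iff_prime_int.mp hℓ
  have hstab : ∀ (e : InertiaAlg A), ∀ x ∈ K, actHom A T e x ∈ K := by
    intro e x hx
    induction e using MonoidAlgebra.induction_on with
    | of σ => rw [actHom_of]; exact hK _ σ.2 x hx
    | add a b ha hb => rw [map_add]; exact add_mem ha hb
    | smul r a ha => rw [map_zsmul]; exact zsmul_mem ha r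
  have key : ∀ x ∈ K, ∃ a : InertiaAlg A, ¬ (ℓ : ℤ) ∣ aug A a ∧ actHom A T a x = 0 := by
    intro x hx
    by_contra! hne
    let W : AddSubgroup T :=
      { carrier := {y | ∃ a : InertiaAlg A, (ℓ : ℤ) ∣ aug A a ∧ actHom A T a x = y}
        zero_mem' := ⟨0, by simp, by rw [map_zero]; rfl⟩
        add_mem' := by
          rintro _ _ ⟨a, ha, rfl⟩ ⟨b, hb, rfl⟩
          exact ⟨a + b, by rw [map_add]; exact dvd_add ha hb, by rw [map_add]; rfl⟩
        neg_mem' := by
          rintro _ ⟨a, ha, rfl⟩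
          exact ⟨-a, by rw [map_neg]; exact ha.neg_right, by rw [map_neg]; rfl⟩ }
    have hxW : x ∈ W := by
      refine mem_of_connected L hℓ hA hfix hℓ2 W ?_ (hred x hx) ?_ ?_
      · rintro σ hσ _ ⟨a, ha, rfl⟩
        refine ⟨MonoidAlgebra.of ℤ _ ⟨σ, hσ⟩ * a, by rw [map_mul, aug_of, one_mul]; exact ha, ?_⟩
        rw [map_mul]
        exact actHom_of ⟨σ, hσ⟩ _
      · refine ⟨(ℓ : InertiaAlg A), by rw [map_natCast], ?_⟩
        rw [map_natCast]
        rfl
      · intro σ hσ
        refine ⟨MonoidAlgebra.of ℤ _ ⟨σ, hσ⟩ - 1,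
          (by rw [map_sub, aug_of, map_one, sub_self]; exact dvd_zero _), ?_⟩
        rw [map_sub, map_one]
        show actHom A T _ x - x = _
        rw [actHom_of]
    obtain ⟨a, ha, hax⟩ := hxW
    refine hne (a - 1) ?_ ?_
    · rw [map_sub, map_one]
      exact fun h => hℓp.not_isUnit (isUnit_of_dvd_one ((dvd_sub_right ha).mp h))
    · rw [map_sub, map_one]
      show actHom A T a x - x = 0
      rw [hax, sub_self]
  suffices h : ∀ s : Finset T, (∀ x ∈ s, x ∈ K) →
      ∃ e : InertiaAlg A, ¬ (ℓ : ℤ) ∣ aug A e ∧ ∀ x ∈ s, actHom A T e x = 0 by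
    have : Fintype T := Fintype.ofFinite T
    obtain ⟨e, he, he'⟩ := h (Finset.univ.filter (· ∈ K)) (by simp)
    exact ⟨e, he, fun x hx => he' x (by simp [hx])⟩
  intro s
  induction s using Finset.induction with
  | empty => exact fun _ => ⟨1, by rw [map_one]; exact fun h => hℓp.not_isUnit (isUnit_of_dvd_one h),
      by simp⟩
  | @insert x s hxs ih =>
    intro hs
    obtain ⟨e, he, he'⟩ := ih fun y hy => hs y (Finset.mem_insert_of_mem hy)
    obtain ⟨a, ha, ha'⟩ := key _ (hstab e x (hs x (Finset.mem_insert_self x s)))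
    refine ⟨a * e, by rw [map_mul]; exact hℓp.not_dvd_mul ha he, fun y hy => ?_⟩
    rw [map_mul]
    show actHom A T a (actHom A T e y) = 0
    rcases Finset.mem_insert.mp hy with rfl | hy
    · exact ha'
    · rw [he' y hy, map_zero]

end FermatAgent.LocalP.UnitRoot

end
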