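import Fermat.Agent.TW.Places
import Fermat.Prelude.Def_GaloisRep_Adic

/-!
# The line cut out by an endomorphism with unit augmentation

If a combination `R` of inertia elements with unit coefficient sum kills `τ - 1` for all inertia
elements `τ`, and the residual representation is ordinary and ramified, then `ker R` is a line with
inertia trivial on the quotient; a quadratic relation killed by `R` gives the Frobenius unit root.
-/

set_option autoImplicit false

noncomputable section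

open IsLocalRing
open scoped TensorProduct Pointwise

namespace FermatAgent.LocalP.UnitRoot

local notation "Qb" => AlgebraicClosure ℚ
local notation "GQ" => AlgebraicClosure ℚ ≃ₐ[ℚ] AlgebraicClosure ℚ

variable {T : Type} [CommRing T] [IsLocalRing T] (ρ : GaloisRepAdic T)

local notation "k" => IsLocalRing.ResidueField T

/-- Reduction of a vector. -/
def redVec : ρ.V →ₗ[T] (k ⊗[T] ρ.V) := TensorProduct.mk T k ρ.V 1

theorem redVec_smul (c : T) (x : ρ.V) : redVec ρ (c • x) = residue T c • redVec ρ x := by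
  rw [map_smul, ← algebraMap_smul k c (redVec ρ x), ResidueField.algebraMap_eq]

theorem redVec_rho (σ : GQ) (x : ρ.V) :
    redVec ρ (ρ.ρ σ x) = (ρ.ρ σ).baseChange k (redVec ρ x) := rfl

theorem redVec_surjective (x : k ⊗[T] ρ.V) : ∃ v, redVec ρ v = x := by
  induction x using TensorProduct.induction_on with
  | zero => exact ⟨0, map_zero _⟩
  | tmul c v =>
    obtain ⟨t, rfl⟩ := residue_surjective c
    refine ⟨t • v, ?_⟩
    show (1 : k) ⊗ₜ[T] (t • v) = _
    rw [TensorProduct.tmul_smul, TensorProduct.smul_tmul', Algebra.smul_def,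
      ResidueField.algebraMap_eq, mul_one]
  | add x y hx hy =>
    obtain ⟨v, rfl⟩ := hx
    obtain ⟨w, rfl⟩ := hy
    exact ⟨v + w, map_add _ _ _⟩

/-- Two vectors with independent reductions form a basis. -/
theorem exists_basis_of_redVec (v : Fin 2 → ρ.V)
    (h : LinearIndependent k fun i => redVec ρ (v i)) :
    ∃ b : Module.Basis (Fin 2) T ρ.V, ∀ i, b i = v i := by
  let b₀ := Module.finBasisOfFinrankEq T ρ.V ρ.finrank_eq
  have hspan : Submodule.span k (Set.range fun i => redVec ρ (v i)) = ⊤ :=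
    h.span_eq_top_of_card_eq_finrank (by
      rw [Module.finrank_baseChange, ρ.finrank_eq, Fintype.card_fin])
  have hunit := (Module.Basis.is_basis_iff_det (b₀.baseChange k)).mp ⟨h, hspan⟩
  have e : (b₀.baseChange k).toMatrix (fun i => redVec ρ (v i)) =
      (b₀.toMatrix v).map (residue T) := Matrix.ext fun i j => by
    rw [Module.Basis.toMatrix_apply, Matrix.map_apply, Module.Basis.toMatrix_apply]
    show (b₀.baseChange k).repr ((1 : k) ⊗ₜ v j) i = _
    rw [Module.Basis.baseChange_repr_tmul, Algebra.smul_def, mul_one, ResidueField.algebraMap_eq]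
  rw [Module.Basis.det_apply, e, ← RingHom.mapMatrix_apply, ← RingHom.map_det] at hunit
  have hu : IsUnit (b₀.det v) := by
    rw [Module.Basis.det_apply]
    exact isUnit_of_map_unit (residue T) _ hunit
  obtain ⟨h1, h2⟩ := (Module.Basis.is_basis_iff_det b₀).mpr hu
  exact ⟨Module.Basis.mk h1 h2.ge, fun i => Module.Basis.mk_apply _ _ i⟩

variable {A : ValuationSubring Qb}

theorem exists_line_of_relation
    (c : ↥(A.inertiaSubgroupIn ℚ) →₀ T) (hc : IsUnit (c.sum fun _ a => a))
    (R : Module.End T ρ.V) (hR : R = c.sum fun σ a => a • ρ.ρ σ)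
    (hR1 : ∀ τ ∈ A.inertiaSubgroupIn ℚ, R * (ρ.ρ τ - 1) = 0)
    (hord : ∃ v : k ⊗[T] ρ.V, ∀ σ ∈ A.inertiaSubgroupIn ℚ, ∀ w,
      (ρ.ρ σ).baseChange k w - w ∈ Submodule.span k {v})
    (hne : ∃ σ ∈ A.inertiaSubgroupIn ℚ, (ρ.ρ σ).baseChange k ≠ 1) :
    ∃ b : Module.Basis (Fin 2) T ρ.V, (∀ x, R x = 0 ↔ x ∈ Submodule.span T {b 0}) ∧
      (∀ σ ∈ A.decompositionSubgroup ℚ, ρ.ρ σ (b 0) ∈ Submodule.span T {b 0}) ∧
      ∀ σ ∈ A.inertiaSubgroupIn ℚ, ∀ x, ρ.ρ σ x - x ∈ Submodule.span T {b 0} := by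
  obtain ⟨v₀, hv₀⟩ := hord
  obtain ⟨τ₀, hτ₀, hne⟩ := hne
  obtain ⟨w₀, hw₀⟩ : ∃ w, (ρ.ρ τ₀).baseChange k w - w ≠ 0 := by
    by_contra! h
    exact hne (LinearMap.ext fun w => sub_eq_zero.mp (h w))
  obtain ⟨v, rfl⟩ := redVec_surjective ρ w₀
  set l := ρ.ρ τ₀ v - v with hldef
  have hl : redVec ρ l ≠ 0 := by rwa [hldef, map_sub, redVec_rho]
  have hline : Submodule.span k {v₀} = Submodule.span k {redVec ρ l} := by
    obtain ⟨a, ha⟩ := Submodule.mem_span_singleton.mp (hv₀ τ₀ hτ₀ (redVec ρ v))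
    have ha' : a • v₀ = redVec ρ l := by rw [hldef, map_sub, redVec_rho]; exact ha
    have ha0 : a ≠ 0 := fun h => hl (by rw [← ha', h, zero_smul])
    rw [← ha', Submodule.span_singleton_smul_eq ha0.isUnit]
  have hRl : R l = 0 := LinearMap.congr_fun (hR1 τ₀ hτ₀) v
  obtain ⟨w', hw'⟩ : ∃ w', w' ∉ Submodule.span k {redVec ρ l} := by
    by_contra! h
    have h1 := finrank_span_singleton (K := k) hl
    rw [(Submodule.eq_top_iff'.mpr h : Submodule.span k {redVec ρ l} = ⊤), finrank_top,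
      Module.finrank_baseChange, ρ.finrank_eq] at h1
    omega
  obtain ⟨w, rfl⟩ := redVec_surjective ρ w'
  have hind : LinearIndependent k fun i => redVec ρ (![l, w] i) := by
    have : (fun i => redVec ρ (![l, w] i)) = ![redVec ρ l, redVec ρ w] := by
      funext i; fin_cases i <;> rfl
    rw [this, LinearIndependent.pair_iff' hl]
    exact fun a ha => hw' (Submodule.mem_span_singleton.mpr ⟨a, ha⟩)
  obtain ⟨b, hb⟩ := exists_basis_of_redVec ρ _ hind
  have hb0 : b 0 = l := hb 0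
  have hb1 : b 1 = w := hb 1
  have hRw : redVec ρ (R w) ≠ 0 := by
    intro h
    have h1 : redVec ρ (R w) - residue T (c.sum fun _ a => a) • redVec ρ w ∈
        Submodule.span k {redVec ρ l} := by
      rw [hR, Finsupp.sum, Finsupp.sum, LinearMap.sum_apply, map_sum, map_sum, Finset.sum_smul,
        ← Finset.sum_sub_distrib]
      refine Submodule.sum_mem _ fun σ _ => ?_
      rw [LinearMap.smul_apply, redVec_smul, redVec_rho]
      have h2 := Submodule.smul_mem _ (residue T (c σ)) (hline ▸ hv₀ σ σ.2 (redVec ρ w))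
      erw [smul_sub] at h2
      exact h2
    rw [h, zero_sub, neg_mem_iff] at h1
    exact hw' ((Submodule.smul_mem_iff _ (hc.map (residue T)).ne_zero).mp h1)
  obtain ⟨i, hi⟩ : ∃ i, IsUnit (b.repr (R w) i) := by
    by_contra! h
    refine hRw ?_
    rw [← b.sum_repr (R w), map_sum]
    refine Finset.sum_eq_zero fun i _ => ?_
    rw [redVec_smul, (residue_eq_zero_iff _).mpr ((mem_maximalIdeal _).mpr (h i)), zero_smul]
  have hker : ∀ x, R x = 0 ↔ x ∈ Submodule.span T {b 0} := by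
    intro x
    rw [hb0]
    refine ⟨fun hx => ?_, fun hx => ?_⟩
    · have hsum := b.sum_repr x
      rw [Fin.sum_univ_two, hb0, hb1] at hsum
      have h1 : R (b.repr x 0 • l + b.repr x 1 • w) = 0 := by rw [hsum]; exact hx
      rw [map_add, map_smul, map_smul, hRl, smul_zero, zero_add] at h1
      have h2 : b.repr x 1 * b.repr (R w) i = 0 := by
        rw [← smul_eq_mul, ← Finsupp.smul_apply, ← map_smul, h1, map_zero, Finsupp.zero_apply]
      rw [hi.mul_left_eq_zero.mp h2, zero_smul, add_zero] at hsum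
      exact Submodule.mem_span_singleton.mpr ⟨_, hsum⟩
    · obtain ⟨a, rfl⟩ := Submodule.mem_span_singleton.mp hx
      rw [map_smul, hRl, smul_zero]
  refine ⟨b, hker, fun g hg => ?_, fun σ hσ x => (hker _).mp ?_⟩
  · refine (hker _).mp ?_
    have hmem : g * τ₀ * g⁻¹ ∈ A.inertiaSubgroupIn ℚ := by
      have h := TW.conj_mem_inertia (g := g) hτ₀
      rwa [show g • A = A from MulAction.mem_stabilizer_iff.1 hg] at h
    have h := LinearMap.congr_fun (hR1 _ hmem) (ρ.ρ g v)
    have e : ρ.ρ g (b 0) = (ρ.ρ (g * τ₀ * g⁻¹) - 1) (ρ.ρ g v) := by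
      rw [hb0, hldef, map_sub, LinearMap.sub_apply, Module.End.one_apply, ← Module.End.mul_apply,
        ← Module.End.mul_apply, ← map_mul, ← map_mul, inv_mul_cancel_right]
    rw [e]
    exact h
  · exact LinearMap.congr_fun (hR1 σ hσ) x

/-- The unit root on the quotient by the line. -/
theorem exists_unit_root (R : Module.End T ρ.V) (b : Module.Basis (Fin 2) T ρ.V)
    (hker : ∀ x, R x = 0 ↔ x ∈ Submodule.span T {b 0})
    (hD : ∀ σ ∈ A.decompositionSubgroup ℚ, ρ.ρ σ (b 0) ∈ Submodule.span T {b 0})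
    (hI : ∀ σ ∈ A.inertiaSubgroupIn ℚ, ∀ x, ρ.ρ σ x - x ∈ Submodule.span T {b 0})
    {p : ℕ} (hp : p.Prime) (hA : A.LiesOverPrime p) (t : T)
    (hR2 : ∀ φ, A.IsFrobeniusAt φ p →
      R * (ρ.ρ φ * ρ.ρ φ - t • ρ.ρ φ + (p : T) • (1 : Module.End T ρ.V)) = 0) :
    ∃ u : T, IsUnit u ∧ u ^ 2 - t * u + p = 0 ∧
      ∀ φ, A.IsFrobeniusAt φ p → ∀ x, ρ.ρ φ x - u • x ∈ Submodule.span T {b 0} := by
  set q : ρ.V →ₗ[T] T := b.coord 1 with hq
  have hqL : ∀ x, x ∈ Submodule.span T {b 0} ↔ q x = 0 := fun x => by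
    refine ⟨fun hx => ?_, fun hx => ?_⟩
    · obtain ⟨a, rfl⟩ := Submodule.mem_span_singleton.mp hx
      simp [hq]
    · rw [Submodule.mem_span_singleton]
      refine ⟨b.repr x 0, ?_⟩
      conv_rhs => rw [← b.sum_repr x, Fin.sum_univ_two,
        show b.repr x 1 = 0 from hx, zero_smul, add_zero]
  have hq1 : q (b 1) = 1 := by simp [hq]
  have hact : ∀ g ∈ A.decompositionSubgroup ℚ, ∀ x, q (ρ.ρ g x) = q x * q (ρ.ρ g (b 1)) := by
    intro g hg x
    conv_lhs => rw [← b.sum_repr x, Fin.sum_univ_two, map_add, map_smul, map_smul, map_add,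
      map_smul, map_smul, (hqL _).mp (hD g hg), smul_zero, zero_add]
    rfl
  obtain ⟨F, hF⟩ := FermatAgent.RT.exists_isFrobeniusAt hp hA
  have hFD := hF.mem_decompositionSubgroup
  have hall : ∀ φ, A.IsFrobeniusAt φ p → ∀ x, ρ.ρ φ x - q (ρ.ρ F (b 1)) • x ∈
      Submodule.span T {b 0} := by
    intro φ hφ x
    have h1 : q (ρ.ρ φ x) = q (ρ.ρ F x) := by
      have h2 := (hqL _).mp (hI _ (TW.inv_mul_mem_inertia hF hφ) x)
      rw [map_sub, sub_eq_zero] at h2
      rw [← mul_inv_cancel_left F φ, map_mul, Module.End.mul_apply,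
        hact F hFD (ρ.ρ (F⁻¹ * φ) x), h2, ← hact F hFD x]
    rw [hqL, map_sub, map_smul, h1, hact F hFD x, smul_eq_mul, mul_comm, sub_self]
  refine ⟨q (ρ.ρ F (b 1)), ?_, ?_, hall⟩
  · refine IsUnit.of_mul_eq_one (q (ρ.ρ F⁻¹ (b 1))) ?_
    rw [← hact F⁻¹ (inv_mem hFD), ← Module.End.mul_apply, ← map_mul, inv_mul_cancel, map_one,
      Module.End.one_apply, hq1]
  · have h := (hqL _).mp ((hker _).mp (LinearMap.congr_fun (hR2 F hF) (b 1)))
    simp only [LinearMap.add_apply, LinearMap.sub_apply, LinearMap.smul_apply,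
      Module.End.mul_apply, Module.End.one_apply, map_add, map_sub, map_smul, smul_eq_mul,
      hq1, mul_one] at h
    rw [hact F hFD (ρ.ρ F (b 1))] at h
    linear_combination h

end FermatAgent.LocalP.UnitRoot

end
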