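import Fermat.Agent.LocalP.UnitRoot.Connected
import Fermat.Agent.GalRep.Construct.Inputs
import Mathlib.Topology.Algebra.Monoid

/-!
# The relation on the Tate module of `J₀(N)` at a prime of good reduction

An integral combination `E` of inertia elements with unit augmentation kills the image of
`τ - 1` (`τ` in inertia) and of `φ ^ 2 - T_p φ + p` (`φ` a Frobenius element).
-/

set_option autoImplicit false
set_option linter.style.haveILetI false

noncomputable section

open CuspForm ModularCurve AlgebraicCurve Matrix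
open FermatAgent.GalRep FermatAgent.JacCharts

namespace FermatAgent.LocalP.UnitRoot

local notation "Qb" => AlgebraicClosure ℚ
local notation "GQ" => AlgebraicClosure ℚ ≃ₐ[ℚ] AlgebraicClosure ℚ

/-- Local models of the `ℓ`-power torsion of `J₀(N)` at `A` whose functions are congruent to
their value at `0` on the kernel of reduction. -/
def HasReductionModels (N ℓ : ℕ) [NeZero N] (A : ValuationSubring Qb) : Prop :=
  ∀ n : ℕ, ∃ (T : Type) (_ : AddCommGroup T) (_ : Finite T) (_ : DistribMulAction GQ T)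
    (ι : T →+ JZero N), Function.Injective ι ∧ (∀ (σ : GQ) (x : T), ι (σ • x) = σ • ι x) ∧
      (∀ y : JZero N, ℓ ^ n • y = 0 ↔ ∃ x, ι x = y) ∧
      ∃ L : LocalModel T A, ∀ f ∈ L.HA, ∀ x, reductionModL A N (ι x) = 0 →
        A.valuation (f x - f 0) < 1

variable {p : ℕ} [Fact p.Prime] {N : ℕ} [NeZero N] {S : Set ℕ} (D : HeckeTorsionData N p S)
  (A : ValuationSubring Qb)

local notation "Mr" => Matrix (Fin D.rank) (Fin D.rank) ℤ_[p]

/-- The group algebra of inertia acting on the Tate module. -/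
def tateInertia : InertiaAlg A →ₐ[ℤ] Mr :=
  MonoidAlgebra.lift ℤ Mr ↥(A.inertiaSubgroupIn ℚ)
    ((tateHom D).comp (A.inertiaSubgroupIn ℚ).subtype)

/-- The Eichler-Shimura polynomial at `p`. -/
def quadMat (hpN : ¬ p ∣ N) (hpS : p ∉ S) (φ : GQ) : Mr :=
  tateHom D φ * tateHom D φ -
    (D.ι (heckeAlgebra.T (k := 2) Fact.out hpN hpS)).map (Int.cast : ℤ → ℤ_[p]) * tateHom D φ +
    (p : Mr)

theorem tateInertia_of (σ : ↥(A.inertiaSubgroupIn ℚ)) :
    tateInertia D A (MonoidAlgebra.of ℤ _ σ) = tateHom D σ := by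
  rw [tateInertia, MonoidAlgebra.lift_of]; rfl

theorem levelMap_tateHom (n : ℕ) (σ : GQ) :
    (PadicInt.toZModPow n).mapMatrix (tateHom D σ) = levelMat D n σ :=
  tateMat_toZModPow D n σ

theorem matrix_eq_zero_of_mulVec {R : Type*} [CommRing R] {r : ℕ}
    {M : Matrix (Fin r) (Fin r) R} (h : ∀ v, M *ᵥ v = 0) : M = 0 :=
  Matrix.ext fun i j => by simpa using congrFun (h (Pi.single j 1)) i

theorem exists_level_relation (hp2 : p ≠ 2) (hpN : ¬ p ∣ N) (hpS : p ∉ S)
    (hA : A.LiesOverPrime p) (hM : HasReductionModels N p A) (n : ℕ) :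
    ∃ e : InertiaAlg A, ¬ (p : ℤ) ∣ aug A e ∧
      (∀ τ ∈ A.inertiaSubgroupIn ℚ,
        (PadicInt.toZModPow n).mapMatrix (tateInertia D A e * (tateHom D τ - 1)) = 0) ∧
      ∀ φ, A.IsFrobeniusAt φ p →
        (PadicInt.toZModPow n).mapMatrix (tateInertia D A e * quadMat D hpN hpS φ) = 0 := by
  have hp : p.Prime := Fact.out
  haveI : NeZero p := ⟨hp.ne_zero⟩
  have hi : FermatAgent.ES.GoodPlaceInputs N p A := FermatAgent.ES.goodInputs N p hp hpN A hA
  obtain ⟨T, _, _, _, ι, hinj, hι, hrange, L, hred⟩ := hM n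
  have htor : ∀ x, p ^ n • ι x = 0 := fun x => (hrange _).mpr ⟨x, rfl⟩
  obtain ⟨Lv, hLv, hLvfix⟩ := D.finite_level n
  have hfix : ∀ x : T, ∃ E : IntermediateField ℚ Qb, FiniteDimensional ℚ E ∧
      ∀ σ ∈ E.fixingSubgroup, σ • x = x := fun x =>
    ⟨Lv, hLv, fun σ hσ => hinj (by
      rw [hι]
      exact hLvfix σ ((IntermediateField.mem_fixingSubgroup_iff _ _).mp hσ) _ (htor x))⟩
  let K : AddSubgroup T := ((reductionModL A N).comp ι).ker
  have hKmem : ∀ x, x ∈ K ↔ reductionModL A N (ι x) = 0 := fun x => Iff.rfl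
  have hK : ∀ σ ∈ A.inertiaSubgroupIn ℚ, ∀ x ∈ K, σ • x ∈ K := fun σ hσ x hx => by
    rw [hKmem, hι, FermatAgent.ES.reductionModL_inertia hi hσ]
    exact hx
  obtain ⟨e, he, hek⟩ := exists_annihilator L hp hA hfix hp2 K hK fun x hx f hf => hred f hf x hx
  let E : T →+ (Fin D.rank → ZMod (p ^ n)) := (D.e n).toAddMonoidHom.comp
    (ι.codRestrict (Pic0.torsion Qb (modularFunctionFieldBar N) (p ^ n))
      fun x => mem_torsion_pow.mpr (htor x))
  have hEsurj : ∀ v, ∃ x, E x = v := fun v => by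
    obtain ⟨y, rfl⟩ := (D.e n).surjective v
    obtain ⟨x, hx⟩ := (hrange _).mp (mem_torsion_pow.mp y.2)
    exact ⟨x, congrArg (D.e n) (Subtype.ext hx)⟩
  have hEσ : ∀ (σ : GQ) x, E (σ • x) = (PadicInt.toZModPow n).mapMatrix (tateHom D σ) *ᵥ E x :=
    fun σ x => by
      rw [levelMap_tateHom]
      exact (levelMat_e D n σ _ _ (hι σ x)).symm
  have hEe : ∀ (a : InertiaAlg A) x, E (actHom A T a x) =
      (PadicInt.toZModPow n).mapMatrix (tateInertia D A a) *ᵥ E x := by
    intro a x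
    induction a using MonoidAlgebra.induction_on with
    | of σ => rw [actHom_of, tateInertia_of]; exact hEσ σ x
    | add a b ha hb =>
      rw [map_add, map_add, map_add, Matrix.add_mulVec, ← ha, ← hb, ← map_add E]; rfl
    | smul r a ha =>
      rw [map_zsmul, map_zsmul, map_zsmul, Matrix.smul_mulVec, ← ha, ← map_zsmul E]; rfl
  refine ⟨e, he, fun τ hτ => ?_, fun φ hφ => ?_⟩
  · refine matrix_eq_zero_of_mulVec fun v => ?_
    obtain ⟨x, rfl⟩ := hEsurj v
    rw [map_mul, ← Matrix.mulVec_mulVec, map_sub, map_one, Matrix.sub_mulVec, Matrix.one_mulVec,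
      ← hEσ, ← map_sub E, ← hEe, hek, map_zero]
    rw [hKmem, map_sub, map_sub, hι, FermatAgent.ES.reductionModL_inertia hi hτ, sub_self]
  · refine matrix_eq_zero_of_mulVec fun v => ?_
    obtain ⟨x, rfl⟩ := hEsurj v
    obtain ⟨y, hy⟩ := (hrange (heckeOperatorBar N ⟨p, hp⟩ (ι (φ • x)))).mp
      (by rw [← map_nsmul, htor, map_zero])
    have hEy : E y = (PadicInt.toZModPow n).mapMatrix
        ((D.ι (heckeAlgebra.T (k := 2) Fact.out hpN hpS)).map (Int.cast : ℤ → ℤ_[p])) *ᵥ
          E (φ • x) := by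
      rw [map_intCast_toZModPow]
      exact D.e_hecke n p hp hpN hpS _ _ hy
    rw [map_mul, ← Matrix.mulVec_mulVec, quadMat, map_add, map_sub, map_mul, map_mul, map_natCast,
      Matrix.add_mulVec, Matrix.sub_mulVec, ← Matrix.mulVec_mulVec, ← Matrix.mulVec_mulVec,
      ← hEσ, ← hEσ, ← hEy, Matrix.natCast_mulVec, Nat.cast_smul_eq_nsmul, ← map_nsmul E, ← map_sub E, ← map_add E, ← hEe,
      hek, map_zero]
    rw [hKmem, map_add ι, map_sub ι, map_nsmul ι, hy, hι, hι]
    exact FermatAgent.ES.reductionModL_quadratic hi hp hA hφ _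

theorem isClosed_ker_toZModPow (n : ℕ) : IsClosed {x : ℤ_[p] | PadicInt.toZModPow n x = 0} := by
  have h : {x : ℤ_[p] | PadicInt.toZModPow n x = 0} = {x | ‖x‖ ≤ (p : ℝ) ^ (-n : ℤ)} := by
    ext x
    rw [Set.mem_ofPred_eq, Set.mem_ofPred_eq, PadicInt.norm_le_pow_iff_mem_span_pow,
      ← PadicInt.ker_toZModPow, RingHom.mem_ker]
  rw [h]
  exact isClosed_le continuous_norm continuous_const

theorem continuous_coord_mul {s : ℕ} (g : Fin s → Mr × ℤ_[p]) (M : Mr) (i j : Fin D.rank) :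
    Continuous fun c : Fin s → ℤ_[p] => ((∑ k, c k • g k).1 * M) i j := by
  have h : (fun c : Fin s → ℤ_[p] => ((∑ k, c k • g k).1 * M) i j) =
      fun c => ∑ k, c k * ((g k).1 * M) i j := funext fun c => by
    simp [Prod.fst_sum, Finset.sum_mul, Matrix.sum_apply]
  rw [h]
  exact continuous_finsetSum _ fun k _ => (continuous_apply k).mul continuous_const

/-- **The relation on the Tate module.** -/
theorem exists_tate_relation (hp2 : p ≠ 2) (hpN : ¬ p ∣ N) (hpS : p ∉ S)
    (hA : A.LiesOverPrime p) (hM : HasReductionModels N p A) :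
    ∃ l : ↥(A.inertiaSubgroupIn ℚ) →₀ ℤ_[p], IsUnit (l.sum fun _ c => c) ∧
      (∀ τ ∈ A.inertiaSubgroupIn ℚ,
        (l.sum fun σ c => c • tateHom D σ) * (tateHom D τ - 1) = 0) ∧
      ∀ φ, A.IsFrobeniusAt φ p →
        (l.sum fun σ c => c • tateHom D σ) * quadMat D hpN hpS φ = 0 := by
  classical
  let Φ : (↥(A.inertiaSubgroupIn ℚ) →₀ ℤ_[p]) →ₗ[ℤ_[p]] Mr × ℤ_[p] :=
    Finsupp.linearCombination ℤ_[p] fun σ => (tateHom D σ, 1)
  obtain ⟨s, g, hg⟩ := Submodule.fg_iff_exists_fin_generating_family.mp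
    (IsNoetherian.noetherian (LinearMap.range Φ))
  have hmem : ∀ k, g k ∈ LinearMap.range Φ := fun k =>
    hg ▸ Submodule.subset_span (Set.mem_range_self k)
  choose lg hlg using fun k => LinearMap.mem_range.mp (hmem k)
  have he : ∀ e : InertiaAlg A, (tateInertia D A e, (aug A e : ℤ_[p])) ∈ LinearMap.range Φ := by
    intro e
    induction e using MonoidAlgebra.induction_on with
    | of σ =>
      exact ⟨Finsupp.single σ 1, by
        rw [Finsupp.linearCombination_single, one_smul, tateInertia_of, aug_of, Int.cast_one]⟩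
    | add a b ha hb => simpa using add_mem ha hb
    | smul r a ha => simpa [zsmul_eq_mul] using zsmul_mem ha r
  let C : ℕ → Set (Fin s → ℤ_[p]) := fun n =>
    {c | ‖(∑ k, c k • g k).2‖ = 1} ∩
      ((⋂ τ ∈ A.inertiaSubgroupIn ℚ, ⋂ i, ⋂ j,
        {c | PadicInt.toZModPow n (((∑ k, c k • g k).1 * (tateHom D τ - 1)) i j) = 0}) ∩
      ⋂ (φ : GQ) (_ : A.IsFrobeniusAt φ p), ⋂ i, ⋂ j,
        {c | PadicInt.toZModPow n (((∑ k, c k • g k).1 * quadMat D hpN hpS φ) i j) = 0})
  have hclosed : ∀ n, IsClosed (C n) := fun n => by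
    refine (isClosed_eq ?_ continuous_const).inter ((isClosed_biInter fun τ _ => isClosed_iInter
      fun i => isClosed_iInter fun j => ?_).inter (isClosed_iInter fun φ => isClosed_iInter
      fun _ => isClosed_iInter fun i => isClosed_iInter fun j => ?_))
    · simp only [Prod.snd_sum, Prod.smul_snd, smul_eq_mul]
      exact continuous_norm.comp (continuous_finsetSum _ fun k _ =>
        (continuous_apply k).mul continuous_const)
    · exact (isClosed_ker_toZModPow n).preimage (continuous_coord_mul D g _ i j)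
    · exact (isClosed_ker_toZModPow n).preimage (continuous_coord_mul D g _ i j)
  have hstep : ∀ n (x : ℤ_[p]), PadicInt.toZModPow (n + 1) x = 0 →
      PadicInt.toZModPow n x = 0 := fun n x hx => by
    rw [← RingHom.mem_ker, PadicInt.ker_toZModPow] at hx ⊢
    exact Ideal.span_singleton_le_span_singleton.mpr (pow_dvd_pow _ n.le_succ) hx
  have hanti : ∀ n, C (n + 1) ⊆ C n := fun n c hc => by
    simp only [C, Set.mem_inter_iff, Set.mem_ofPred_eq, Set.mem_iInter] at hc ⊢
    exact ⟨hc.1, fun τ hτ i j => hstep n _ (hc.2.1 τ hτ i j),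
      fun φ hφ i j => hstep n _ (hc.2.2 φ hφ i j)⟩
  have hne : ∀ n, (C n).Nonempty := fun n => by
    obtain ⟨e, he1, he2, he3⟩ := exists_level_relation D A hp2 hpN hpS hA hM n
    obtain ⟨c, hc⟩ := (Submodule.mem_span_range_iff_exists_fun (R := ℤ_[p])).mp (hg ▸ he e)
    refine ⟨c, ?_⟩
    simp only [C, Set.mem_inter_iff, Set.mem_ofPred_eq, Set.mem_iInter, hc]
    refine ⟨PadicInt.isUnit_iff.mp ?_, fun τ hτ i j => ?_, fun φ hφ i j => ?_⟩
    · rw [PadicInt.isUnit_iff]
      refine le_antisymm (PadicInt.norm_le_one _) (not_lt.mp fun h => he1 ?_)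
      exact PadicInt.norm_intCast_lt_one_iff.mp h
    · exact congrFun (congrFun (he2 τ hτ) i) j
    · exact congrFun (congrFun (he3 φ hφ) i) j
  obtain ⟨c, hc⟩ := IsCompact.nonempty_iInter_of_sequence_nonempty_isCompact_isClosed C hanti hne
    (hclosed 0).isCompact hclosed
  simp only [C, Set.mem_iInter, Set.mem_inter_iff, Set.mem_ofPred_eq] at hc
  refine ⟨∑ k, c k • lg k, ?_⟩
  have hΦ : Φ (∑ k, c k • lg k) = ∑ k, c k • g k := by simp [map_sum, hlg]
  have hE : ((∑ k, c k • lg k).sum fun σ a => a • tateHom D σ) = (∑ k, c k • g k).1 := by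
    rw [← hΦ]
    simp only [Φ, Finsupp.linearCombination_apply, Finsupp.sum, Prod.fst_sum, Prod.smul_fst]
  have haug : ((∑ k, c k • lg k).sum fun _ a => a) = (∑ k, c k • g k).2 := by
    rw [← hΦ]
    simp only [Φ, Finsupp.linearCombination_apply, Finsupp.sum, Prod.snd_sum, Prod.smul_snd,
      smul_eq_mul, mul_one]
  rw [haug, hE]
  exact ⟨PadicInt.isUnit_iff.mpr (hc 0).1,
    fun τ hτ => matrix_ext_of_toZModPow fun n => Matrix.ext fun i j => by
      simpa using (hc n).2.1 τ hτ i j,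
    fun φ hφ => matrix_ext_of_toZModPow fun n => Matrix.ext fun i j => by
      simpa using (hc n).2.2 φ hφ i j⟩

end FermatAgent.LocalP.UnitRoot

end
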