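import Fermat.Agent.LocalP.UnitRoot.Relations
import Fermat.Agent.LocalP.UnitRoot.Torsion
import Fermat.Agent.LocalP.UnitRoot.Line

/-!
# The unit root line at a prime of good reduction

`p` odd and prime to `N`: a representation with the Frobenius characteristic polynomials of a
Hecke character of level `N`, residually irreducible, ordinary and ramified at `A ∣ p`, has a line
at `A` with inertia trivial on the quotient, on which Frobenius acts by the unit root of
`X ^ 2 - T_p X + p`.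
-/

set_option autoImplicit false

noncomputable section

open CuspForm IsLocalRing FermatAgent.GalRep
open scoped TensorProduct

namespace FermatAgent.LocalP.UnitRoot

local notation "Qb" => AlgebraicClosure ℚ
local notation "GQ" => AlgebraicClosure ℚ ≃ₐ[ℚ] AlgebraicClosure ℚ

section Comb

variable {p : ℕ} [Fact p.Prime] {N : ℕ} [NeZero N] {S₀ : Finset ℕ}
  {A : ValuationSubring Qb}

theorem tateCombH_inj (D : HeckeTateData N p (↑S₀ : Set ℕ))
    (t : heckeAlgebra N 2 (↑S₀ : Set ℕ)) (l : ↥(A.inertiaSubgroupIn ℚ) →₀ ℤ_[p]) :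
    tateCombH D (l.mapDomain fun σ : ↥(A.inertiaSubgroupIn ℚ) => ((σ : GQ), t)) =
      hecMat D t * l.sum fun σ c => c • D.ρ σ := by
  rw [tateCombH, Finsupp.linearCombination_mapDomain, Finsupp.linearCombination_apply,
    Finsupp.mul_sum]
  exact Finsupp.sum_congr fun σ _ => (mul_smul_comm _ _ _).symm

theorem adicCombH_inj {T : Type} [CommRing T] [IsLocalRing T] [IsNoetherianRing T]
    [IsAdicComplete (maximalIdeal T) T] (hpT : (p : T) ∈ maximalIdeal T)
    (χ : heckeAlgebra N 2 (↑S₀ : Set ℕ) →+* T) (ρ : GaloisRepAdic T)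
    (t : heckeAlgebra N 2 (↑S₀ : Set ℕ)) (l : ↥(A.inertiaSubgroupIn ℚ) →₀ ℤ_[p]) :
    adicCombH hpT χ ρ (l.mapDomain fun σ : ↥(A.inertiaSubgroupIn ℚ) => ((σ : GQ), t)) =
      χ t • (l.mapRange (padicToRing hpT) (map_zero _)).sum fun σ a => a • ρ.ρ σ := by
  classical
  induction l using Finsupp.induction_linear with
  | zero => simp
  | add l m hl hm =>
    rw [Finsupp.mapDomain_add, map_add, hl, hm, ← smul_add, Finsupp.mapRange_add (map_add _),
      Finsupp.sum_add_index' (h := fun (σ : ↥(A.inertiaSubgroupIn ℚ)) (a : T) => a • ρ.ρ (σ : GQ))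
        (fun σ => zero_smul T (ρ.ρ (σ : GQ))) (fun σ a a' => add_smul a a' (ρ.ρ (σ : GQ)))]
  | single σ c =>
    rw [Finsupp.mapDomain_single, adicCombH_single, Finsupp.mapRange_single,
      Finsupp.sum_single_index (zero_smul T (ρ.ρ (σ : GQ))), smul_smul, mul_comm]

end Comb

/-- **The unit root line**, given local models of the torsion of `J₀(N)`. -/
theorem exists_unitRoot_line_of_models {N p : ℕ} [NeZero N] (hp : p.Prime) (hp2 : p ≠ 2)
    (hpN : ¬ p ∣ N) {S₀ : Finset ℕ} (hNS : ∀ q, q.Prime → q ∣ N → q ∈ S₀) (hpS : p ∉ S₀)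
    {T : Type} [CommRing T] [IsLocalRing T] [IsNoetherianRing T]
    [IsAdicComplete (maximalIdeal T) T] (hpT : (p : T) ∈ maximalIdeal T)
    (χ : heckeAlgebra N 2 (↑S₀ : Set ℕ) →+* T) (ρ : GaloisRepAdic T) (S : Finset ℕ)
    (hρ : HasFrobCharpolys χ ρ S) (hirr : ρ.residual.IsAbsolutelyIrreducible)
    {A : ValuationSubring Qb} (hA : A.LiesOverPrime p) (hM : HasReductionModels N p A)
    (hord : ∃ v : ρ.residual.V, ∀ σ ∈ A.inertiaSubgroupIn ℚ, ∀ w,
      ρ.residual.ρ σ w - w ∈ Submodule.span (ResidueField T) {v})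
    (hne : ∃ σ ∈ A.inertiaSubgroupIn ℚ, ρ.residual.ρ σ ≠ 1) :
    ∃ b : Module.Basis (Fin 2) T ρ.V,
      (∀ σ ∈ A.decompositionSubgroup ℚ, ρ.ρ σ (b 0) ∈ Submodule.span T {b 0}) ∧
      (∀ σ ∈ A.inertiaSubgroupIn ℚ, ∀ x, ρ.ρ σ x - x ∈ Submodule.span T {b 0}) ∧
      ∃ u : T, IsUnit u ∧
        u ^ 2 - χ (heckeAlgebra.T (k := 2) hp hpN (fun h => hpS h)) * u + p = 0 ∧
        ∀ φ, A.IsFrobeniusAt φ p → ∀ x, ρ.ρ φ x - u • x ∈ Submodule.span T {b 0} := by
  classical
  have := Fact.mk hp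
  have hS : ∀ q : ℕ, q.Prime → q ∣ N → q ∈ (↑S₀ : Set ℕ) := fun q hq hqN => hNS q hq hqN
  obtain ⟨D₀⟩ := FermatAgent.ModCurveTorsion.heckeTorsionInput N p hp (↑S₀ : Set ℕ) hS
  let D : HeckeTateData N p (↑S₀ : Set ℕ) := heckeTateDataOf D₀
    (FermatAgent.ES.torsionUnramified N p) (FermatAgent.ES.torsionFrobQuadratic N p) hS
  obtain ⟨l, hl, hl1₀, hl2₀⟩ := exists_tate_relation D₀ A hp2 hpN hpS hA hM
  set tp := heckeAlgebra.T (k := 2) hp hpN (fun h => hpS h : p ∉ (↑S₀ : Set ℕ))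
  let inj : heckeAlgebra N 2 (↑S₀ : Set ℕ) →
      (↥(A.inertiaSubgroupIn ℚ) → GQ × heckeAlgebra N 2 (↑S₀ : Set ℕ)) :=
    fun t σ => ((σ : GQ), t)
  let E : Matrix (Fin D.rank) (Fin D.rank) ℤ_[p] := l.sum fun σ c => c • D.ρ σ
  have hl1 : ∀ τ ∈ A.inertiaSubgroupIn ℚ, E * (D.ρ τ - 1) = 0 := hl1₀
  have hl2 : ∀ φ, A.IsFrobeniusAt φ p →
      E * (D.ρ φ * D.ρ φ - hecMat D tp * D.ρ φ + (p : Matrix (Fin D.rank) (Fin D.rank) ℤ_[p])) =
        0 := hl2₀
  have htate : ∀ t, tateCombH D (l.mapDomain (inj t)) = hecMat D t * E := fun t =>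
    tateCombH_inj D t l
  let cT : ↥(A.inertiaSubgroupIn ℚ) →₀ T := l.mapRange (padicToRing hpT) (map_zero _)
  let R : Module.End T ρ.V := cT.sum fun σ a => a • ρ.ρ σ
  have hadic : ∀ t, adicCombH hpT χ ρ (l.mapDomain (inj t)) = χ t • R := fun t =>
    adicCombH_inj hpT χ ρ t l
  have hR1 : ∀ τ ∈ A.inertiaSubgroupIn ℚ, R * (ρ.ρ τ - 1) = 0 := fun τ hτ => by
    have h := adicCombH_eq_zero D hpT χ ρ frobDense hρ hirr
      ((l.mapDomain (inj 1)).mapDomain (Prod.map (· * τ) id) - l.mapDomain (inj 1)) (by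
        rw [map_sub, tateCombH_mapDomain_right, htate, map_one, one_mul]
        exact (sub_eq_of_eq_add ((eq_add_of_sub_eq (by simpa [mul_sub] using hl1 τ hτ)))))
    rw [map_sub, adicCombH_mapDomain_right, hadic, map_one, one_smul] at h
    rw [mul_sub, mul_one]
    exact h
  have hR2 : ∀ φ, A.IsFrobeniusAt φ p →
      R * (ρ.ρ φ * ρ.ρ φ - χ tp • ρ.ρ φ + (p : T) • (1 : Module.End T ρ.V)) = 0 := fun φ hφ => by
    have h := adicCombH_eq_zero D hpT χ ρ frobDense hρ hirr
      (((l.mapDomain (inj 1)).mapDomain (Prod.map (· * φ) id)).mapDomain (Prod.map (· * φ) id) -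
        (l.mapDomain (inj tp)).mapDomain (Prod.map (· * φ) id) + p • l.mapDomain (inj 1)) (by
        rw [map_add, map_sub, map_nsmul, tateCombH_mapDomain_right, tateCombH_mapDomain_right,
          tateCombH_mapDomain_right, htate, htate, map_one, one_mul]
        have hc : hecMat D tp * E = E * hecMat D tp := by
          show _ * (l.sum fun σ c => c • D.ρ σ) = (l.sum fun σ c => c • D.ρ σ) * _
          rw [Finsupp.mul_sum, Finsupp.sum_mul]
          exact Finsupp.sum_congr fun σ _ => by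
            rw [mul_smul_comm, smul_mul_assoc]; exact congrArg _ (hecMat_comm D _ tp).symm
        rw [hc, ← hl2 φ hφ, mul_add, mul_sub, nsmul_eq_mul', ← mul_assoc, ← mul_assoc])
    rw [map_add, map_sub, map_nsmul, adicCombH_mapDomain_right, adicCombH_mapDomain_right,
      adicCombH_mapDomain_right, hadic, hadic, map_one, one_smul] at h
    rw [mul_add, mul_sub, mul_smul_comm, mul_smul_comm, mul_one, ← mul_assoc,
      Nat.cast_smul_eq_nsmul, ← smul_mul_assoc]
    exact h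
  obtain ⟨b, hker, hD, hI⟩ := exists_line_of_relation ρ cT (by
    show IsUnit ((l.mapRange (padicToRing hpT) (map_zero _)).sum fun _ a => a)
    rw [Finsupp.sum_mapRange_index (fun _ => rfl), ← map_finsuppSum]
    exact hl.map _) R rfl hR1 hord hne
  exact ⟨b, hD, hI, exists_unit_root ρ R b hker hD hI hp hA (χ tp) hR2⟩

end FermatAgent.LocalP.UnitRoot

end
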